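import Mathlib.NumberTheory.ArithmeticFunction.Misc
import Mathlib.NumberTheory.ArithmeticFunction.Moebius
import Mathlib.RingTheory.RootsOfUnity.Complex
import Mathlib.Tactic

/-!
# Sums over the Farey fractions

A sum over the Farey fractions of order `N` is the sum over `k ≤ N` of the sum over the fractions
`j / k` weighted by the Mertens function at `N / k`.
-/

set_option autoImplicit false

noncomputable section

open Finset
open scoped ArithmeticFunction.Moebius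

namespace FA.FranelLandau

/-- The Farey fractions of order `N` in `(0, 1]`. -/
def farey (N : ℕ) : Finset ℚ :=
  ((Icc 1 N).sigma fun q => (Icc 1 q).filter (Nat.Coprime · q)).image fun p => (p.2 : ℚ) / p.1

/-- The Mertens function. -/
def mertens (n : ℕ) : ℝ := ∑ k ∈ Icc 1 n, (μ k : ℝ)

/-- The place of `r` among the Farey fractions. -/
def rank (N : ℕ) (r : ℚ) : ℕ := ((farey N).filter (· ≤ r)).card

/-- The distance of a Farey fraction from the equally spaced one of the same place. -/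
def discrepancy (N : ℕ) (r : ℚ) : ℝ := (r : ℝ) - (rank N r : ℝ) / ((farey N).card : ℝ)

theorem den_frac {a q : ℕ} (hq : 0 < q) (h : Nat.Coprime a q) : ((a : ℚ) / q).den = q := by
  have := Rat.den_div_eq_of_coprime (a := (a : ℤ)) (b := (q : ℤ)) (by exact_mod_cast hq)
    (by simpa using h)
  push_cast at this
  exact_mod_cast this

theorem frac_injOn {S : Finset ℕ} (hS : ∀ q ∈ S, 0 < q) :
    Set.InjOn (fun p : (_ : ℕ) × ℕ => (p.2 : ℚ) / p.1)
      (S.sigma fun q => (Icc 1 q).filter (Nat.Coprime · q) : Finset ((_ : ℕ) × ℕ)) := by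
  rintro ⟨q, a⟩ h ⟨q', a'⟩ h' e
  simp only [coe_sigma, Set.mem_sigma_iff, mem_coe, mem_filter] at h h'
  simp only at e
  have hq : q = q' := by
    rw [← den_frac (hS q h.1) h.2.2, ← den_frac (hS q' h'.1) h'.2.2, e]
  subst hq
  rw [div_left_inj' (Nat.cast_ne_zero.2 (hS q h.1).ne'), Nat.cast_inj] at e
  subst e
  rfl

theorem exists_frac {r : ℚ} (h0 : 0 < r) (h1 : r ≤ 1) :
    ∃ a ∈ Icc 1 r.den, Nat.Coprime a r.den ∧ (a : ℚ) / (r.den : ℚ) = r := by
  have hn : 0 < r.num := Rat.num_pos.2 h0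
  have hle : r.num ≤ (r.den : ℤ) := Rat.num_le_denom_iff.2 h1
  refine ⟨r.num.natAbs, mem_Icc.2 ⟨by omega, by omega⟩, r.reduced, ?_⟩
  rw [Nat.cast_natAbs, abs_of_pos hn, Rat.num_div_den]

theorem mem_farey {N : ℕ} {r : ℚ} : r ∈ farey N ↔ 0 < r ∧ r ≤ 1 ∧ r.den ≤ N := by
  simp only [farey, mem_image, mem_sigma, mem_filter, mem_Icc, Sigma.exists]
  constructor
  · rintro ⟨q, a, ⟨⟨hq1, hqN⟩, ⟨ha1, haq⟩, hc⟩, rfl⟩
    have ha : (0 : ℚ) < a := Nat.cast_pos.2 ha1
    have hq : (0 : ℚ) < q := Nat.cast_pos.2 hq1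
    exact ⟨div_pos ha hq, (div_le_one hq).2 (Nat.cast_le.2 haq), by rw [den_frac hq1 hc]; exact hqN⟩
  · rintro ⟨h0, h1, hN⟩
    obtain ⟨a, ha, hc, e⟩ := exists_frac h0 h1
    exact ⟨r.den, a, ⟨⟨r.den_pos, hN⟩, mem_Icc.1 ha, hc⟩, e⟩

theorem one_mem_farey {N : ℕ} (hN : 1 ≤ N) : (1 : ℚ) ∈ farey N :=
  mem_farey.2 ⟨one_pos, le_rfl, by simpa using hN⟩

theorem card_farey_pos {N : ℕ} (hN : 1 ≤ N) : 0 < (farey N).card :=
  card_pos.2 ⟨1, one_mem_farey hN⟩

theorem sum_farey {β : Type*} [AddCommMonoid β] (f : ℚ → β) (N : ℕ) :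
    ∑ r ∈ farey N, f r =
      ∑ q ∈ Icc 1 N, ∑ a ∈ (Icc 1 q).filter (Nat.Coprime · q), f ((a : ℚ) / q) := by
  rw [farey, sum_image (frac_injOn fun q hq => (mem_Icc.1 hq).1), sum_sigma]

theorem sum_coprime_divisors {β : Type*} [AddCommMonoid β] (f : ℚ → β) {n : ℕ} (hn : 0 < n) :
    ∑ d ∈ n.divisors, ∑ a ∈ (Icc 1 d).filter (Nat.Coprime · d), f ((a : ℚ) / d) =
      ∑ j ∈ Icc 1 n, f ((j : ℚ) / n) := by
  have hpos : ∀ d ∈ n.divisors, 0 < d := fun d hd => Nat.pos_of_mem_divisors hd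
  have hn' : (n : ℚ) ≠ 0 := Nat.cast_ne_zero.2 hn.ne'
  have hinj : Set.InjOn (fun j : ℕ => (j : ℚ) / n) (Icc 1 n : Finset ℕ) := by
    intro i _ j _ e
    simpa [div_left_inj' hn'] using e
  rw [sum_sigma' n.divisors _ fun (d a : ℕ) => f ((a : ℚ) / d),
    ← sum_image (f := f) (frac_injOn hpos), ← sum_image (f := f) hinj]
  congr 1
  ext r
  simp only [mem_image, mem_sigma, mem_filter, mem_Icc, Sigma.exists, Nat.mem_divisors]
  constructor
  · rintro ⟨d, a, ⟨⟨hd, -⟩, ⟨ha1, had⟩, -⟩, rfl⟩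
    obtain ⟨c, rfl⟩ := hd
    rw [Nat.pos_iff_ne_zero, mul_ne_zero_iff] at hn
    refine ⟨a * c, ⟨Nat.one_le_iff_ne_zero.2 (mul_ne_zero (by omega) hn.2),
      Nat.mul_le_mul_right c had⟩, ?_⟩
    have : (d : ℚ) ≠ 0 := Nat.cast_ne_zero.2 hn.1
    have : (c : ℚ) ≠ 0 := Nat.cast_ne_zero.2 hn.2
    push_cast
    field_simp
  · rintro ⟨j, ⟨hj1, hjn⟩, rfl⟩
    have hq : (0 : ℚ) < n := Nat.cast_pos.2 hn
    obtain ⟨a, ha, hc, e⟩ := exists_frac (r := (j : ℚ) / n) (div_pos (Nat.cast_pos.2 hj1) hq)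
      ((div_le_one hq).2 (Nat.cast_le.2 hjn))
    refine ⟨((j : ℚ) / n).den, a, ⟨⟨?_, hn.ne'⟩, mem_Icc.1 ha, hc⟩, e⟩
    have hd := Rat.den_dvd (j : ℤ) (n : ℤ)
    rw [Rat.divInt_eq_div] at hd
    push_cast at hd
    exact Int.natCast_dvd_natCast.1 hd

/-- A sum over the Farey fractions, unfolded by Möbius inversion. -/
theorem sum_farey_eq {β : Type*} [CommRing β] (f : ℚ → β) (N : ℕ) :
    ∑ r ∈ farey N, f r =
      ∑ k ∈ Icc 1 N, (∑ j ∈ Icc 1 k, f ((j : ℚ) / k)) * ((∑ d ∈ Icc 1 (N / k), μ d : ℤ) : β) := by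
  let G : ArithmeticFunction β := ⟨fun k => ∑ j ∈ Icc 1 k, f ((j : ℚ) / k), by simp⟩
  have hinv := (ArithmeticFunction.sum_eq_iff_sum_mul_moebius_eq
    (f := fun d => ∑ a ∈ (Icc 1 d).filter (Nat.Coprime · d), f ((a : ℚ) / d))
    (g := fun k => G k)).1 fun n hn => sum_coprime_divisors f hn
  have hI : ∀ m : ℕ, Icc 1 m = Ioc 0 m := fun m => by
    ext
    simp only [mem_Icc, mem_Ioc]
    omega
  rw [sum_farey]
  calc ∑ q ∈ Icc 1 N, ∑ a ∈ (Icc 1 q).filter (Nat.Coprime · q), f ((a : ℚ) / q)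
      = ∑ q ∈ Ioc 0 N, (G * (μ : ArithmeticFunction β)) q := by
        rw [hI N]
        refine sum_congr rfl fun q hq => ?_
        rw [← hinv q (mem_Ioc.1 hq).1, mul_comm, ArithmeticFunction.mul_apply]
        simp
    _ = _ := by
        rw [ArithmeticFunction.sum_Ioc_mul_eq_sum_sum, hI N]
        refine sum_congr rfl fun k _ => ?_
        rw [hI (N / k), Int.cast_sum]
        rfl

theorem sum_farey_mertens (f : ℚ → ℝ) (N : ℕ) :
    ∑ r ∈ farey N, f r = ∑ k ∈ Icc 1 N, (∑ j ∈ Icc 1 k, f ((j : ℚ) / k)) * mertens (N / k) := by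
  rw [sum_farey_eq]
  simp [mertens]

theorem card_farey (N : ℕ) :
    ((farey N).card : ℝ) = ∑ k ∈ Icc 1 N, (k : ℝ) * mertens (N / k) := by
  simpa using sum_farey_mertens (fun _ => 1) N

theorem sum_mertens {N : ℕ} (hN : 1 ≤ N) : ∑ k ∈ Icc 1 N, mertens (N / k) = 1 := by
  have h := sum_farey_mertens (fun r => if r = 1 then 1 else 0) N
  rw [sum_ite_eq', if_pos (one_mem_farey hN)] at h
  rw [h]
  refine sum_congr rfl fun k hk => ?_
  have hk0 : (k : ℚ) ≠ 0 := Nat.cast_ne_zero.2 (by have := (mem_Icc.1 hk).1; omega)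
  simp only [div_eq_one_iff_eq hk0, Nat.cast_inj, sum_ite_eq']
  rw [if_pos (mem_Icc.2 ⟨(mem_Icc.1 hk).1, le_rfl⟩), one_mul]

theorem sum_Icc_natCast (k : ℕ) : ∑ j ∈ Icc 1 k, (j : ℝ) = (k : ℝ) * (k + 1) / 2 := by
  induction k with
  | zero => simp
  | succ k ih =>
    rw [sum_Icc_succ_top (by omega), ih]
    push_cast
    ring

theorem sum_Icc_natCast_sq (k : ℕ) :
    ∑ j ∈ Icc 1 k, (j : ℝ) ^ 2 = (k : ℝ) * (k + 1) * (2 * k + 1) / 6 := by
  induction k with
  | zero => simp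
  | succ k ih =>
    rw [sum_Icc_succ_top (by omega), ih]
    push_cast
    ring

theorem sum_farey_self {N : ℕ} (hN : 1 ≤ N) :
    ∑ r ∈ farey N, (r : ℝ) = (((farey N).card : ℝ) + 1) / 2 := by
  rw [sum_farey_mertens, card_farey, ← sum_mertens hN, ← sum_add_distrib, sum_div]
  refine sum_congr rfl fun k hk => ?_
  have hk0 : (k : ℝ) ≠ 0 := Nat.cast_ne_zero.2 (by have := (mem_Icc.1 hk).1; omega)
  push_cast
  rw [← sum_div, sum_Icc_natCast]
  field_simp

theorem count_le {N : ℕ} {x : ℝ} (h0 : 0 ≤ x) (h1 : x ≤ 1) :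
    ∑ r ∈ farey N, (if (r : ℝ) ≤ x then (1 : ℝ) else 0) =
      ((farey N).card : ℝ) * x - ∑ k ∈ Icc 1 N, mertens (N / k) * Int.fract ((k : ℝ) * x) := by
  rw [sum_farey_mertens, card_farey, sum_mul, ← sum_sub_distrib]
  refine sum_congr rfl fun k hk => ?_
  have hk0 : (0 : ℝ) < k := Nat.cast_pos.2 (mem_Icc.1 hk).1
  have hx : 0 ≤ (k : ℝ) * x := by positivity
  have hset : (Icc 1 k).filter (fun j : ℕ => (((j : ℚ) / k : ℚ) : ℝ) ≤ x) =
      Icc 1 ⌊(k : ℝ) * x⌋₊ := by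
    ext j
    have hle : ⌊(k : ℝ) * x⌋₊ ≤ k :=
      Nat.floor_le_of_le ((mul_le_mul_of_nonneg_left h1 hk0.le).trans (mul_one _).le)
    simp only [mem_filter, mem_Icc]
    push_cast
    rw [div_le_iff₀ hk0, mul_comm x (k : ℝ), ← Nat.le_floor_iff hx]
    omega
  rw [sum_boole, hset, Nat.card_Icc, Nat.add_sub_cancel, natCast_floor_eq_intCast_floor hx,
    ← Int.self_sub_fract]
  ring

/-- **Landau's exponential sum.** -/
theorem sum_exp (N : ℕ) :
    ∑ r ∈ farey N, Complex.exp (2 * Real.pi * Complex.I * (r : ℂ)) = (mertens N : ℂ) := by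
  rcases Nat.eq_zero_or_pos N with rfl | hN
  · rw [show farey 0 = ∅ from rfl]
    simp [mertens]
  rw [sum_farey_eq, sum_eq_single 1]
  · simp [mertens]
  · intro k hk hk1
    have h1 : 1 < k := by
      have := (mem_Icc.1 hk).1
      omega
    rw [mul_eq_zero]
    left
    have hz := Complex.isPrimitiveRoot_exp k (by omega)
    have hI : Icc 1 k = (range k).image (· + 1) := by
      ext j
      simp only [mem_Icc, mem_image, mem_range]
      exact ⟨fun h => ⟨j - 1, by omega, by omega⟩, by rintro ⟨i, hi, rfl⟩; omega⟩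
    rw [hI, sum_image fun i _ j _ e => Nat.add_right_cancel e]
    calc _ = ∑ i ∈ range k, Complex.exp (2 * Real.pi * Complex.I / k) ^ i *
            Complex.exp (2 * Real.pi * Complex.I / k) := by
          refine sum_congr rfl fun i _ => ?_
          rw [← Complex.exp_nat_mul, ← Complex.exp_add]
          congr 1
          push_cast
          ring
      _ = 0 := by rw [← sum_mul, hz.geom_sum_eq_zero h1, zero_mul]
  · intro h
    exact absurd (mem_Icc.2 ⟨le_rfl, hN⟩) h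

theorem rank_lt {N : ℕ} {r s : ℚ} (hs : s ∈ farey N) (h : r < s) : rank N r < rank N s := by
  refine card_lt_card ((ssubset_iff_of_subset ?_).2 ⟨s, ?_, ?_⟩)
  · exact monotone_filter_right _ fun t _ (ht : t ≤ r) => ht.trans h.le
  · exact mem_filter.2 ⟨hs, le_rfl⟩
  · simp [h]

theorem rank_injOn (N : ℕ) : Set.InjOn (rank N) (farey N : Set ℚ) := by
  intro r hr s hs e
  rcases lt_trichotomy r s with h | h | h
  exacts [absurd e (rank_lt hs h).ne, h, absurd e (rank_lt hr h).ne']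

theorem image_rank (N : ℕ) : (farey N).image (rank N) = Icc 1 (farey N).card := by
  refine eq_of_subset_of_card_le (fun i hi => ?_) ?_
  · obtain ⟨r, hr, rfl⟩ := mem_image.1 hi
    exact mem_Icc.2 ⟨card_pos.2 ⟨r, mem_filter.2 ⟨hr, le_rfl⟩⟩,
      card_le_card (filter_subset _ _)⟩
  · rw [card_image_of_injOn (rank_injOn N), Nat.card_Icc, Nat.add_sub_cancel]

theorem sum_rank {β : Type*} [AddCommMonoid β] (f : ℕ → β) (N : ℕ) :
    ∑ r ∈ farey N, f (rank N r) = ∑ i ∈ Icc 1 (farey N).card, f i := by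
  rw [← image_rank, sum_image (rank_injOn N)]

theorem sum_max (N : ℕ) :
    ∑ r ∈ farey N, ∑ s ∈ farey N, max (r : ℝ) s =
      2 * (∑ r ∈ farey N, (r : ℝ) * rank N r) - ∑ r ∈ farey N, (r : ℝ) := by
  have e : ∀ r s : ℚ, max (r : ℝ) s = (if s ≤ r then (r : ℝ) else 0) +
      (if r ≤ s then (s : ℝ) else 0) - (if s = r then (r : ℝ) else 0) := by
    intro r s
    rcases lt_trichotomy r s with h | rfl | h
    · simp [h.le, h.not_ge, h.ne']
    · simp
    · simp [h.le, h.not_ge, h.ne]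
  have h1 : ∀ r, ∑ s ∈ farey N, (if s ≤ r then (r : ℝ) else 0) = (r : ℝ) * rank N r := by
    intro r
    rw [← sum_filter, sum_const, nsmul_eq_mul, mul_comm, rank]
  simp only [e, sum_sub_distrib, sum_add_distrib, h1]
  rw [show (∑ r ∈ farey N, ∑ s ∈ farey N, if r ≤ s then (s : ℝ) else 0) =
    ∑ s ∈ farey N, (s : ℝ) * rank N s from sum_comm.trans (sum_congr rfl fun s _ => h1 s), two_mul]
  congr 1
  exact sum_congr rfl fun r hr => by rw [sum_ite_eq', if_pos hr]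

end FA.FranelLandau
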