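import Mathlib.MeasureTheory.Integral.IntervalIntegral.Periodic
import Mathlib.Analysis.SpecialFunctions.Integrals.Basic
import Mathlib.MeasureTheory.Function.Floor
import Mathlib.Tactic

/-!
# The integrals in Franel's identity

For the sawtooth `B x = fract x - 1 / 2` the integral of `B (a x) B (b x)` over a period is
`gcd (a, b) ² / (12 a b)`.
-/

set_option autoImplicit false

noncomputable section

open Finset MeasureTheory intervalIntegral Filter

namespace FA.FranelLandau

/-- The sawtooth. -/
def saw (x : ℝ) : ℝ := Int.fract x - 1 / 2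

theorem measurable_saw : Measurable saw := measurable_fract.sub_const _

theorem abs_saw_le (x : ℝ) : |saw x| ≤ 1 := by
  rw [saw, abs_le]
  constructor <;> linarith [Int.fract_nonneg x, Int.fract_lt_one x]

theorem saw_periodic : Function.Periodic saw 1 := fun x => by simp [saw]

theorem intervalIntegrable_of_abs_le {F : ℝ → ℝ} (hF : Measurable F) (C a b : ℝ)
    (hC : ∀ x, |F x| ≤ C) : IntervalIntegrable F volume a b :=
  intervalIntegrable_iff.2 (IntegrableOn.of_bound measure_Ioc_lt_top hF.aestronglyMeasurable C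
    (Eventually.of_forall hC))

theorem measurable_saw_mul (c : ℝ) : Measurable fun x => saw (c * x) :=
  measurable_saw.comp (measurable_const.mul measurable_id)

theorem intervalIntegrable_saw_mul (c d a b : ℝ) :
    IntervalIntegrable (fun x => saw (c * x) * saw (d * x)) volume a b :=
  intervalIntegrable_of_abs_le ((measurable_saw_mul c).mul (measurable_saw_mul d)) 1 a b fun x => by
    simp only [Pi.mul_apply]
    rw [abs_mul]
    exact mul_le_one₀ (abs_saw_le _) (abs_nonneg _) (abs_saw_le _)

theorem integral_saw : ∫ x in (0 : ℝ)..1, saw x = 0 := by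
  have h : ∫ x in (0 : ℝ)..1, saw x = ∫ x in (0 : ℝ)..1, (x - 1 / 2) := by
    refine integral_congr_ae ?_
    filter_upwards [Measure.ae_ne volume (1 : ℝ)] with x hx hI
    rw [Set.uIoc_of_le zero_le_one] at hI
    rw [saw, Int.fract_eq_self.2 ⟨hI.1.le, lt_of_le_of_ne hI.2 hx⟩]
  rw [h, integral_sub intervalIntegrable_id intervalIntegrable_const, integral_id,
    intervalIntegral.integral_const]
  norm_num

theorem integral_saw_sq : ∫ x in (0 : ℝ)..1, saw x * saw x = 1 / 12 := by
  have h : ∫ x in (0 : ℝ)..1, saw x * saw x = ∫ x in (0 : ℝ)..1, (x - 1 / 2) ^ 2 := by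
    refine integral_congr_ae ?_
    filter_upwards [Measure.ae_ne volume (1 : ℝ)] with x hx hI
    rw [Set.uIoc_of_le zero_le_one] at hI
    rw [saw, Int.fract_eq_self.2 ⟨hI.1.le, lt_of_le_of_ne hI.2 hx⟩, sq]
  rw [h, intervalIntegral.integral_comp_sub_right (fun x => x ^ 2), integral_pow]
  norm_num

/-- A periodic function keeps its mean when the period is divided by a natural number. -/
theorem integral_comp_natMul {F : ℝ → ℝ} (hp : Function.Periodic F 1) {g : ℕ} (hg : 0 < g)
    (hi : ∀ a b, IntervalIntegrable F volume a b) :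
    ∫ x in (0 : ℝ)..1, F ((g : ℝ) * x) = ∫ x in (0 : ℝ)..1, F x := by
  have h := hp.intervalIntegral_add_zsmul_eq (g : ℤ) 0 hi
  simp only [zero_add, zsmul_eq_mul, Int.cast_natCast, mul_one] at h
  rw [intervalIntegral.integral_comp_mul_left F (Nat.cast_ne_zero.2 hg.ne'), mul_zero, mul_one, h,
    smul_eq_mul, ← mul_assoc, inv_mul_cancel₀ (Nat.cast_ne_zero.2 hg.ne'), one_mul]

theorem integral_saw_natMul {k : ℕ} (hk : 0 < k) :
    ∫ x in (0 : ℝ)..1, saw ((k : ℝ) * x) = 0 :=
  (integral_comp_natMul saw_periodic hk fun a b =>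
    intervalIntegrable_of_abs_le measurable_saw 1 a b abs_saw_le).trans integral_saw

theorem sum_range_natCast (a : ℕ) : ∑ i ∈ range a, (i : ℝ) = (a : ℝ) * ((a : ℝ) - 1) / 2 := by
  induction a with
  | zero => simp
  | succ a ih =>
    rw [sum_range_succ, ih]
    push_cast
    ring

/-- The multiplication formula of the sawtooth, along a permuted set of shifts. -/
theorem sum_saw {a b : ℕ} (ha : 0 < a) (hab : Nat.Coprime a b) (y : ℝ) :
    ∑ j ∈ range a, saw ((y + b * j) / a) = saw y := by
  have ha' : (0 : ℝ) < a := Nat.cast_pos.2 ha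
  have hne : (a : ℤ) ≠ 0 := by exact_mod_cast ha.ne'
  have key : ∀ j : ℕ, Int.fract ((y + b * j) / a) =
      (Int.fract y + (((⌊y⌋ + b * j) % a).toNat : ℝ)) / a := by
    intro j
    have h0 := Int.emod_nonneg (⌊y⌋ + b * j) hne
    have hlt := Int.emod_lt_of_pos (⌊y⌋ + b * j) (Int.natCast_pos.2 ha)
    have hR : ((((⌊y⌋ + b * j) % a).toNat : ℕ) : ℝ) = (((⌊y⌋ + b * j) % a : ℤ) : ℝ) := by
      rw [← Int.cast_natCast, Int.toNat_of_nonneg h0]
    rw [hR]
    refine Int.fract_eq_iff.2 ⟨?_, ?_, (⌊y⌋ + b * j) / a, ?_⟩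
    · exact div_nonneg (add_nonneg (Int.fract_nonneg y) (by exact_mod_cast h0)) ha'.le
    · rw [div_lt_one ha']
      have : (((⌊y⌋ + b * j) % a : ℤ) : ℝ) + 1 ≤ (a : ℝ) := by exact_mod_cast hlt
      linarith [Int.fract_lt_one y]
    · have h := congrArg (Int.cast : ℤ → ℝ) (Int.emod_add_ediv_mul (⌊y⌋ + b * j) (a : ℤ))
      push_cast at h
      rw [eq_comm, ← sub_eq_zero]
      field_simp
      linarith [Int.self_sub_floor y]
  have hperm : (range a).image (fun j : ℕ => ((⌊y⌋ + b * j) % a).toNat) = range a := by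
    refine eq_of_subset_of_card_le (fun i hi => ?_) ?_
    · obtain ⟨j, -, rfl⟩ := mem_image.1 hi
      have := Int.emod_lt_of_pos (⌊y⌋ + b * j) (Int.natCast_pos.2 ha)
      exact mem_range.2 (by omega)
    · rw [card_image_of_injOn]
      intro i hi j hj e
      simp only [coe_range, Set.mem_Iio] at hi hj
      have hi0 := Int.emod_nonneg (⌊y⌋ + b * i) hne
      have hj0 := Int.emod_nonneg (⌊y⌋ + b * j) hne
      have e' : (⌊y⌋ + b * i) % (a : ℤ) = (⌊y⌋ + b * j) % (a : ℤ) := by
        simp only at e
        omega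
      have hd : (a : ℤ) ∣ (b : ℤ) * ((i : ℤ) - j) := by
        have := Int.dvd_of_emod_eq_zero (Int.emod_eq_emod_iff_emod_sub_eq_zero.1 e')
        rwa [show ⌊y⌋ + (b : ℤ) * i - (⌊y⌋ + b * j) = b * ((i : ℤ) - j) by ring] at this
      have hd' := Int.dvd_of_dvd_mul_right_of_gcd_one hd (by simpa using hab)
      have : ((i : ℤ) - j).natAbs < (a : ℤ).natAbs := by omega
      have := Int.eq_zero_of_dvd_of_natAbs_lt_natAbs hd' this
      omega
  have hinj := (card_image_iff.1 (congrArg card hperm : _))
  simp only [saw, key, sum_sub_distrib, ← sum_div, sum_add_distrib, sum_const, card_range,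
    nsmul_eq_mul]
  rw [← sum_image (f := fun i : ℕ => (i : ℝ)) hinj, hperm, sum_range_natCast]
  field_simp
  ring

theorem integral_saw_coprime {a b : ℕ} (ha : 0 < a) (hab : Nat.Coprime a b) :
    ∫ x in (0 : ℝ)..1, saw ((a : ℝ) * x) * saw ((b : ℝ) * x) =
      (∫ x in (0 : ℝ)..1, saw ((b : ℝ) * x) * saw ((1 : ℕ) * x)) / a := by
  have ha' : (a : ℝ) ≠ 0 := Nat.cast_ne_zero.2 ha.ne'
  set c : ℝ := (b : ℝ) / a
  have hint : ∀ (i : ℕ) (u v : ℝ), IntervalIntegrable
      (fun x => saw x * saw (((b : ℝ) * x + b * i) / a)) volume u v := fun i u v =>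
    intervalIntegrable_of_abs_le (measurable_saw.mul (measurable_saw.comp (by fun_prop))) 1 u v
      fun x => by
        simp only [Pi.mul_apply, Function.comp_apply]
        rw [abs_mul]
        exact mul_le_one₀ (abs_saw_le _) (abs_nonneg _) (abs_saw_le _)
  have h1 : ∀ x : ℝ, saw ((a : ℝ) * x) * saw ((b : ℝ) * x) =
      (fun u => saw (1 * u) * saw (c * u)) ((a : ℝ) * x) := fun x => by
    simp only [one_mul, c]
    rw [show (b : ℝ) / a * ((a : ℝ) * x) = b * x by field_simp]
  simp only [h1]
  rw [intervalIntegral.integral_comp_mul_left (fun u => saw (1 * u) * saw (c * u)) ha', mul_zero,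
    mul_one, smul_eq_mul, ← div_eq_inv_mul]
  congr 1
  have hs := intervalIntegral.sum_integral_adjacent_intervals (μ := volume)
    (f := fun u => saw (1 * u) * saw (c * u)) (a := fun k : ℕ => (k : ℝ)) (n := a)
    fun k _ => intervalIntegrable_saw_mul _ _ _ _
  simp only [Nat.cast_zero] at hs
  rw [← hs]
  calc ∑ j ∈ range a, ∫ u in (j : ℝ)..((j + 1 : ℕ) : ℝ), saw (1 * u) * saw (c * u)
      = ∑ j ∈ range a, ∫ x in (0 : ℝ)..1, saw x * saw (((b : ℝ) * x + b * j) / a) := by
        refine sum_congr rfl fun j _ => ?_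
        have := intervalIntegral.integral_comp_add_right
          (fun u => saw (1 * u) * saw (c * u)) (a := 0) (b := 1) (j : ℝ)
        rw [zero_add, add_comm (1 : ℝ)] at this
        push_cast
        rw [← this]
        refine integral_congr fun x _ => ?_
        simp only [one_mul, c]
        have hp := saw_periodic.nat_mul j x
        rw [mul_one] at hp
        rw [hp]
        congr 2
        ring
    _ = _ := by
        rw [← intervalIntegral.integral_finsetSum fun j _ => hint j 0 1]
        refine integral_congr fun x _ => ?_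
        rw [← mul_sum, sum_saw ha hab, Nat.cast_one, one_mul, mul_comm]

theorem integral_saw_mul_saw {a b : ℕ} (ha : 0 < a) (hb : 0 < b) :
    ∫ x in (0 : ℝ)..1, saw ((a : ℝ) * x) * saw ((b : ℝ) * x) =
      (Nat.gcd a b : ℝ) ^ 2 / (12 * a * b) := by
  obtain ⟨a', b', hc, e1, e2⟩ := Nat.exists_coprime a b
  have hg : 0 < Nat.gcd a b := Nat.gcd_pos_of_pos_left _ ha
  set g := Nat.gcd a b
  rw [e1] at ha
  rw [e2] at hb
  have ha0 := Nat.pos_of_mul_pos_right ha
  have hb0 := Nat.pos_of_mul_pos_right hb
  have hper : Function.Periodic (fun x : ℝ => saw ((a' : ℝ) * x) * saw ((b' : ℝ) * x)) 1 := by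
    intro x
    simp [mul_add, saw]
  rw [e1, e2]
  push_cast
  simp only [mul_assoc _ (g : ℝ)]
  rw [integral_comp_natMul hper hg fun u v => intervalIntegrable_saw_mul _ _ u v,
    integral_saw_coprime ha0 hc, integral_saw_coprime hb0 (Nat.coprime_one_right b')]
  simp only [Nat.cast_one, one_mul]
  rw [integral_saw_sq]
  have : (g : ℝ) ≠ 0 := Nat.cast_ne_zero.2 hg.ne'
  have : (a' : ℝ) ≠ 0 := Nat.cast_ne_zero.2 ha0.ne'
  have : (b' : ℝ) ≠ 0 := Nat.cast_ne_zero.2 hb0.ne'
  field_simp

theorem integral_fract_mul_fract {a b : ℕ} (ha : 0 < a) (hb : 0 < b) :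
    ∫ x in (0 : ℝ)..1, Int.fract ((a : ℝ) * x) * Int.fract ((b : ℝ) * x) =
      (Nat.gcd a b : ℝ) ^ 2 / (12 * a * b) + 1 / 4 := by
  have hi : ∀ c : ℝ, IntervalIntegrable (fun x => saw (c * x)) volume 0 1 := fun c =>
    intervalIntegrable_of_abs_le (measurable_saw_mul c) 1 0 1 fun x => abs_saw_le _
  have e : ∀ x : ℝ, Int.fract ((a : ℝ) * x) * Int.fract ((b : ℝ) * x) =
      saw ((a : ℝ) * x) * saw ((b : ℝ) * x) +
        (1 / 2 * saw ((a : ℝ) * x) + (1 / 2 * saw ((b : ℝ) * x) + 1 / 4)) := fun x => by
    simp only [saw]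
    ring
  simp only [e]
  rw [integral_add (intervalIntegrable_saw_mul _ _ _ _)
      (((hi _).const_mul _).add (((hi _).const_mul _).add intervalIntegrable_const)),
    integral_add ((hi _).const_mul _) (((hi _).const_mul _).add intervalIntegrable_const),
    integral_add ((hi _).const_mul _) intervalIntegrable_const,
    intervalIntegral.integral_const_mul, intervalIntegral.integral_const_mul,
    integral_saw_natMul ha, integral_saw_natMul hb, integral_saw_mul_saw ha hb,
    intervalIntegral.integral_const]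
  simp

/-- The step at `r`, less `x`. -/
def step (r x : ℝ) : ℝ := (if r ≤ x then 1 else 0) - x

theorem measurable_step (r : ℝ) : Measurable (step r) :=
  (Measurable.ite measurableSet_Ici measurable_const measurable_const).sub measurable_id

theorem intervalIntegrable_step_mul (r s a b : ℝ) :
    IntervalIntegrable (fun x => step r x * step s x) volume a b := by
  refine intervalIntegrable_iff.2 (IntegrableOn.of_bound measure_Ioc_lt_top
    ((measurable_step r).mul (measurable_step s)).aestronglyMeasurable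
    ((1 + max |a| |b|) * (1 + max |a| |b|)) ?_)
  filter_upwards [ae_restrict_mem measurableSet_uIoc] with x hx
  have hb : |x| ≤ max |a| |b| := by
    rcases Set.mem_uIoc.1 hx with h | h
    · exact abs_le_max_abs_abs h.1.le h.2
    · rw [max_comm]
      exact abs_le_max_abs_abs h.1.le h.2
  have h : ∀ t, |step t x| ≤ 1 + max |a| |b| := fun t => by
    refine (abs_sub _ _).trans (add_le_add ?_ hb)
    split_ifs <;> simp
  rw [Real.norm_eq_abs, abs_mul]
  exact mul_le_mul (h r) (h s) (abs_nonneg _) (by positivity)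

theorem integral_step_mul_step {r s : ℝ} (hr : r ∈ Set.Icc (0 : ℝ) 1) (hs : s ∈ Set.Icc (0 : ℝ) 1) :
    ∫ x in (0 : ℝ)..1, step r x * step s x = r ^ 2 / 2 + s ^ 2 / 2 - max r s + 1 / 3 := by
  wlog hrs : r ≤ s generalizing r s with H
  · simp only [mul_comm (step r _)]
    rw [H hs hr (le_of_not_ge hrs), max_comm]
    ring
  rw [max_eq_right hrs, ← integral_add_adjacent_intervals (b := r)
    (intervalIntegrable_step_mul _ _ _ _) (intervalIntegrable_step_mul _ _ _ _),
    ← integral_add_adjacent_intervals (a := r) (b := s)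
    (intervalIntegrable_step_mul _ _ _ _) (intervalIntegrable_step_mul _ _ _ _)]
  have e1 : ∫ x in (0 : ℝ)..r, step r x * step s x = ∫ x in (0 : ℝ)..r, x ^ 2 := by
    refine integral_congr_ae ?_
    filter_upwards [Measure.ae_ne volume r] with x hx hI
    rw [Set.uIoc_of_le hr.1] at hI
    have : x < r := lt_of_le_of_ne hI.2 hx
    rw [step, step, if_neg this.not_ge, if_neg (this.trans_le hrs).not_ge]
    ring
  have e2 : ∫ x in r..s, step r x * step s x = ∫ x in r..s, (x ^ 2 - x) := by
    refine integral_congr_ae ?_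
    filter_upwards [Measure.ae_ne volume s] with x hx hI
    rw [Set.uIoc_of_le hrs] at hI
    rw [step, step, if_pos hI.1.le, if_neg (lt_of_le_of_ne hI.2 hx).not_ge]
    ring
  have e3 : ∫ x in s..1, step r x * step s x = ∫ x in s..1, (x ^ 2 - 2 * x + 1) := by
    refine integral_congr_ae (Eventually.of_forall fun x hI => ?_)
    rw [Set.uIoc_of_le hs.2] at hI
    rw [step, step, if_pos (hrs.trans hI.1.le), if_pos hI.1.le]
    ring
  rw [e1, e2, e3, integral_sub (intervalIntegrable_pow 2) intervalIntegrable_id,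
    integral_add ((intervalIntegrable_pow 2).sub (intervalIntegrable_id.const_mul 2))
      intervalIntegrable_const,
    integral_sub (intervalIntegrable_pow 2) (intervalIntegrable_id.const_mul 2),
    intervalIntegral.integral_const_mul, intervalIntegral.integral_const]
  simp only [integral_pow, integral_id, smul_eq_mul]
  ring

end FA.FranelLandau
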