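import Fermat.Agent.FranelLandau.Farey
import Fermat.Agent.FranelLandau.Integral
import Fermat.Agent.Khintchine.Main
import Fermat.Agent.Root.SummaryVonKoch
import Mathlib.Algebra.Order.Chebyshev

/-!
# The theorem of Franel and Landau

The Riemann hypothesis says that the Farey fractions are equally spaced up to the expected error.
-/

set_option autoImplicit false

noncomputable section

open Finset MeasureTheory intervalIntegral
open scoped ArithmeticFunction.Moebius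

namespace FA.FranelLandau

/-- The quadratic form of Franel. -/
def franelForm (N : ℕ) : ℝ :=
  ∑ a ∈ Icc 1 N, ∑ b ∈ Icc 1 N,
    mertens (N / a) * mertens (N / b) * (Nat.gcd a b : ℝ) ^ 2 / ((a : ℝ) * b)

theorem sum_rank_self {N : ℕ} :
    ∑ r ∈ farey N, (rank N r : ℝ) ^ 2 =
      ((farey N).card : ℝ) * ((farey N).card + 1) * (2 * (farey N).card + 1) / 6 := by
  rw [sum_rank (fun i => ((i : ℕ) : ℝ) ^ 2), sum_Icc_natCast_sq]

theorem sum_discrepancy_sq {N : ℕ} (hN : 1 ≤ N) :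
    ((farey N).card : ℝ) * ∑ r ∈ farey N, discrepancy N r ^ 2 =
      (∑ r ∈ farey N, ∑ s ∈ farey N,
        ((r : ℝ) ^ 2 / 2 + (s : ℝ) ^ 2 / 2 - max (r : ℝ) s + 1 / 3)) - 1 / 3 := by
  have hΦ : ((farey N).card : ℝ) ≠ 0 := Nat.cast_ne_zero.2 (card_farey_pos hN).ne'
  have e : ∀ r, discrepancy N r ^ 2 = (r : ℝ) ^ 2 - 2 / ((farey N).card : ℝ) * ((r : ℝ) * rank N r)
      + (rank N r : ℝ) ^ 2 / ((farey N).card : ℝ) ^ 2 := fun r => by
    rw [discrepancy]
    field_simp
    ring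
  simp only [e, sum_add_distrib, sum_sub_distrib, ← mul_sum, ← sum_div, sum_const, nsmul_eq_mul,
    sum_rank_self, sum_max, sum_farey_self hN]
  field_simp
  ring

theorem intervalIntegrable_finsetSum {ι : Type*} (s : Finset ι) {f : ι → ℝ → ℝ} {a b : ℝ}
    (h : ∀ i, IntervalIntegrable (f i) volume a b) :
    IntervalIntegrable (fun x => ∑ i ∈ s, f i x) volume a b := by
  classical
  induction s using Finset.induction_on with
  | empty => simp
  | insert i s hi ih => simpa only [sum_insert hi] using (h i).add ih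

theorem franel_identity {N : ℕ} (hN : 1 ≤ N) :
    12 * ((farey N).card : ℝ) * ∑ r ∈ farey N, discrepancy N r ^ 2 = franelForm N - 1 := by
  have hm : ∀ r ∈ farey N, (r : ℝ) ∈ Set.Icc (0 : ℝ) 1 := fun r hr => by
    obtain ⟨h0, h1, -⟩ := mem_farey.1 hr
    exact ⟨Rat.cast_nonneg.2 h0.le, by exact_mod_cast h1⟩
  have h1 : ∫ x in (0 : ℝ)..1, (∑ r ∈ farey N, step r x) ^ 2 =
      ∑ r ∈ farey N, ∑ s ∈ farey N,
        ((r : ℝ) ^ 2 / 2 + (s : ℝ) ^ 2 / 2 - max (r : ℝ) s + 1 / 3) := by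
    simp only [sq (∑ r ∈ farey N, step (r : ℝ) _), sum_mul_sum]
    rw [intervalIntegral.integral_finsetSum fun r _ => intervalIntegrable_finsetSum _ fun s =>
      intervalIntegrable_step_mul _ _ _ _]
    refine sum_congr rfl fun r hr => ?_
    rw [intervalIntegral.integral_finsetSum fun s _ => intervalIntegrable_step_mul _ _ _ _]
    exact sum_congr rfl fun s hs => integral_step_mul_step (hm r hr) (hm s hs)
  have hint : ∀ a b : ℕ, IntervalIntegrable
      (fun x : ℝ => mertens (N / a) * mertens (N / b) *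
        (Int.fract ((a : ℝ) * x) * Int.fract ((b : ℝ) * x))) volume 0 1 := fun a b =>
    (intervalIntegrable_of_abs_le ((measurable_fract.comp (measurable_const.mul measurable_id)).mul
      (measurable_fract.comp (measurable_const.mul measurable_id))) 1 0 1 fun x => by
      simp only [Pi.mul_apply, Function.comp_apply]
      rw [abs_mul, Int.abs_fract, Int.abs_fract]
      exact mul_le_one₀ (Int.fract_lt_one _).le (Int.fract_nonneg _)
        (Int.fract_lt_one _).le).const_mul _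
  have h2 : ∫ x in (0 : ℝ)..1, (∑ r ∈ farey N, step r x) ^ 2 =
      franelForm N / 12 + 1 / 4 := by
    calc ∫ x in (0 : ℝ)..1, (∑ r ∈ farey N, step r x) ^ 2
        = ∫ x in (0 : ℝ)..1, ∑ a ∈ Icc 1 N, ∑ b ∈ Icc 1 N, mertens (N / a) * mertens (N / b) *
            (Int.fract ((a : ℝ) * x) * Int.fract ((b : ℝ) * x)) := by
          refine integral_congr fun x hx => ?_
          rw [Set.uIcc_of_le zero_le_one] at hx
          simp only [step, sum_sub_distrib, sum_const, nsmul_eq_mul, count_le hx.1 hx.2]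
          rw [sub_sub_cancel_left, neg_sq, sq, sum_mul_sum]
          exact sum_congr rfl fun a _ => sum_congr rfl fun b _ => by ring
      _ = ∑ a ∈ Icc 1 N, ∑ b ∈ Icc 1 N, mertens (N / a) * mertens (N / b) *
            ((Nat.gcd a b : ℝ) ^ 2 / (12 * a * b) + 1 / 4) := by
          rw [intervalIntegral.integral_finsetSum fun a _ => intervalIntegrable_finsetSum _ fun b =>
            hint a b]
          refine sum_congr rfl fun a ha => ?_
          rw [intervalIntegral.integral_finsetSum fun b _ => hint a b]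
          refine sum_congr rfl fun b hb => ?_
          rw [intervalIntegral.integral_const_mul,
            integral_fract_mul_fract (mem_Icc.1 ha).1 (mem_Icc.1 hb).1]
      _ = franelForm N / 12 +
            (∑ a ∈ Icc 1 N, mertens (N / a)) * (∑ b ∈ Icc 1 N, mertens (N / b)) / 4 := by
          rw [franelForm, sum_mul_sum]
          simp only [sum_div, ← sum_add_distrib]
          exact sum_congr rfl fun a _ => sum_congr rfl fun b _ => by ring
      _ = _ := by rw [sum_mertens hN, one_mul]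
  rw [mul_assoc, sum_discrepancy_sq hN, ← h1, h2]
  ring

/-- The exponents are summable. -/
theorem sum_rpow_le {t : ℝ} (ht : 1 < t) (N : ℕ) :
    ∑ m ∈ Icc 1 N, (m : ℝ) ^ (-t) ≤ ∑' m : ℕ, (m : ℝ) ^ (-t) :=
  (Real.summable_nat_rpow.2 (by linarith)).sum_le_tsum _ fun m _ => by positivity

theorem gcd_form_le {t : ℝ} (ht : 3 / 2 < t) (N : ℕ) :
    ∑ a ∈ Icc 1 N, ∑ b ∈ Icc 1 N, (Nat.gcd a b : ℝ) ^ 2 * ((a : ℝ) ^ (-t) * (b : ℝ) ^ (-t)) ≤
      (∑' m : ℕ, (m : ℝ) ^ (-t)) ^ 2 * ∑' m : ℕ, (m : ℝ) ^ (-(2 * t - 2)) := by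
  set Z : ℝ := ∑' m : ℕ, (m : ℝ) ^ (-t) with hZ
  calc ∑ a ∈ Icc 1 N, ∑ b ∈ Icc 1 N, (Nat.gcd a b : ℝ) ^ 2 * ((a : ℝ) ^ (-t) * (b : ℝ) ^ (-t))
      ≤ ∑ a ∈ Icc 1 N, ∑ b ∈ Icc 1 N, ∑ d ∈ Icc 1 N, (d : ℝ) ^ 2 *
          ((if d ∣ a then (a : ℝ) ^ (-t) else 0) * (if d ∣ b then (b : ℝ) ^ (-t) else 0)) := by
        refine sum_le_sum fun a ha => sum_le_sum fun b _ => ?_
        rw [mem_Icc] at ha
        refine le_trans (le_of_eq ?_) (single_le_sum (a := Nat.gcd a b) (fun d _ => ?_) ?_)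
        · simp [Nat.gcd_dvd_left, Nat.gcd_dvd_right]
        · positivity
        · exact mem_Icc.2 ⟨Nat.gcd_pos_of_pos_left _ ha.1,
            (Nat.gcd_le_left _ ha.1).trans ha.2⟩
    _ = ∑ d ∈ Icc 1 N, (d : ℝ) ^ 2 *
          (∑ a ∈ Icc 1 N, if d ∣ a then (a : ℝ) ^ (-t) else 0) ^ 2 := by
        symm
        simp only [sq (∑ a ∈ Icc 1 N, _), sum_mul_sum]
        simp only [mul_sum]
        rw [sum_comm]
        exact sum_congr rfl fun a _ => sum_comm
    _ ≤ ∑ d ∈ Icc 1 N, (d : ℝ) ^ 2 * ((d : ℝ) ^ (-t) * Z) ^ 2 := by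
        refine sum_le_sum fun d hd => ?_
        have hd0 : 0 < d := (mem_Icc.1 hd).1
        refine mul_le_mul_of_nonneg_left (pow_le_pow_left₀ (by positivity) ?_ 2) (by positivity)
        rw [← sum_filter]
        calc ∑ a ∈ (Icc 1 N).filter (d ∣ ·), (a : ℝ) ^ (-t)
            ≤ ∑ a ∈ (Icc 1 N).image (d * ·), (a : ℝ) ^ (-t) := by
              refine sum_le_sum_of_subset_of_nonneg (fun a ha => ?_) fun a _ _ => by positivity
              simp only [mem_filter, mem_Icc] at ha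
              obtain ⟨⟨h1, h2⟩, m, rfl⟩ := ha
              refine mem_image.2 ⟨m, mem_Icc.2 ⟨Nat.pos_of_mul_pos_left h1, ?_⟩, rfl⟩
              exact (Nat.le_mul_of_pos_left m hd0).trans h2
          _ = (d : ℝ) ^ (-t) * ∑ m ∈ Icc 1 N, (m : ℝ) ^ (-t) := by
              rw [sum_image fun i _ j _ e => Nat.eq_of_mul_eq_mul_left hd0 e, mul_sum]
              refine sum_congr rfl fun m _ => ?_
              rw [Nat.cast_mul, Real.mul_rpow (by positivity) (by positivity)]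
          _ ≤ (d : ℝ) ^ (-t) * Z := mul_le_mul_of_nonneg_left (sum_rpow_le (by linarith) N)
              (by positivity)
    _ = Z ^ 2 * ∑ d ∈ Icc 1 N, (d : ℝ) ^ (-(2 * t - 2)) := by
        rw [mul_sum]
        refine sum_congr rfl fun d hd => ?_
        have hd0 : (0 : ℝ) < d := Nat.cast_pos.2 (mem_Icc.1 hd).1
        rw [mul_pow, ← mul_assoc, mul_comm (Z ^ 2), ← Real.rpow_natCast ((d : ℝ) ^ (-t)) 2,
          ← Real.rpow_mul hd0.le, ← Real.rpow_natCast (d : ℝ) 2, ← Real.rpow_add hd0]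
        congr 2
        push_cast
        ring
    _ ≤ _ := mul_le_mul_of_nonneg_left (sum_rpow_le (by linarith) N) (sq_nonneg _)

theorem card_farey_ge (N : ℕ) : (N : ℝ) ^ 2 / 64 ≤ ((farey N).card : ℝ) := by
  have hcard : ((farey N).card : ℝ) = ∑ q ∈ Icc 1 N, (q.totient : ℝ) := by
    rw [card_eq_sum_ones, sum_farey, Nat.cast_sum]
    refine sum_congr rfl fun q _ => ?_
    rw [← card_eq_sum_ones, ← Nat.filter_coprime_Ico_eq_totient q 1]
    congr 2
    ext a
    simp only [mem_filter, mem_Icc, mem_Ico, Nat.coprime_comm]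
    omega
  have hsmall : ∑ q ∈ Icc 1 N, (if 8 * q ≤ N then (1 : ℝ) else 0) ≤ (N : ℝ) / 8 := by
    rw [sum_boole]
    refine le_trans (Nat.cast_le.2 (card_le_card (t := Icc 1 (N / 8)) fun q hq => ?_)) ?_
    · simp only [mem_filter, mem_Icc] at hq ⊢
      omega
    · rw [Nat.card_Icc, Nat.add_sub_cancel]
      exact Nat.cast_div_le
  have hterm : ∀ q ∈ Icc 1 N, (N : ℝ) / 8 * ((q.totient : ℝ) / q -
      (if 8 * q ≤ N then 1 else 0)) ≤ (q.totient : ℝ) := by
    intro q hq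
    have hq0 : (0 : ℝ) < q := Nat.cast_pos.2 (mem_Icc.1 hq).1
    have hle : (q.totient : ℝ) / q ≤ 1 := by
      rw [div_le_one hq0]
      exact Nat.cast_le.2 (Nat.totient_le q)
    split_ifs with h
    · exact (mul_nonpos_of_nonneg_of_nonpos (by positivity) (by linarith)).trans (by positivity)
    · rw [sub_zero, mul_div_assoc', div_le_iff₀ hq0, mul_comm]
      refine mul_le_mul_of_nonneg_left ?_ (by positivity)
      rw [div_le_iff₀ (by norm_num)]
      exact_mod_cast (by omega : N ≤ q * 8)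
  have h := FA.Khintchine.quarter_le_sum_totient_div N
  have h2 := sum_le_sum hterm
  rw [← mul_sum, sum_sub_distrib, ← hcard] at h2
  refine le_trans ?_ h2
  rw [show (N : ℝ) ^ 2 / 64 = (N : ℝ) / 8 * ((N : ℝ) / 8) by ring]
  exact mul_le_mul_of_nonneg_left (by linarith) (by positivity)

theorem card_farey_le (N : ℕ) : (farey N).card ≤ N ^ 2 := by
  refine card_image_le.trans ?_
  rw [card_sigma, sq]
  refine (sum_le_card_nsmul _ _ N fun q hq => (card_filter_le _ _).trans ?_).trans ?_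
  · rw [Nat.card_Icc, Nat.add_sub_cancel]
    exact (mem_Icc.1 hq).2
  · simp

theorem mertens_le_of_rh (h : RiemannHypothesis) {η : ℝ} (hη : 0 < η) :
    ∃ C : ℝ, ∀ N a : ℕ, 1 ≤ a → a ≤ N →
      |mertens (N / a)| ≤ C * ((N : ℝ) / a) ^ (1 / 2 + η) := by
  obtain ⟨C, hC⟩ := FA.VonKoch.Summary.riemannHypothesis_iff_mertens.1 h η hη
  refine ⟨C, fun N a ha hN => ?_⟩
  have h1 := hC ((N : ℝ) / a) (by
    rw [le_div_iff₀ (Nat.cast_pos.2 ha), one_mul]
    exact Nat.cast_le.2 hN)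
  rwa [Nat.floor_div_eq_div] at h1

theorem franel_of_rh (h : RiemannHypothesis) {ε : ℝ} (hε : 0 < ε) :
    ∃ C : ℝ, ∀ N : ℕ, 1 ≤ N →
      ∑ r ∈ farey N, discrepancy N r ^ 2 ≤ C * (N : ℝ) ^ (-1 + ε) := by
  obtain ⟨C, hC⟩ := mertens_le_of_rh h (show 0 < ε / 2 by linarith)
  set t : ℝ := 3 / 2 + ε / 2 with ht
  set K : ℝ := C ^ 2 * ((∑' m : ℕ, (m : ℝ) ^ (-t)) ^ 2 *
    ∑' m : ℕ, (m : ℝ) ^ (-(2 * t - 2))) with hK
  refine ⟨64 / 12 * K, fun N hN => ?_⟩
  have hN0 : (0 : ℝ) < N := Nat.cast_pos.2 hN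
  have hform : franelForm N ≤ K * (N : ℝ) ^ (1 + ε) := by
    calc franelForm N
        ≤ ∑ a ∈ Icc 1 N, ∑ b ∈ Icc 1 N, C ^ 2 * (N : ℝ) ^ (1 + ε) *
            ((Nat.gcd a b : ℝ) ^ 2 * ((a : ℝ) ^ (-t) * (b : ℝ) ^ (-t))) := by
          refine sum_le_sum fun a ha => sum_le_sum fun b hb => ?_
          rw [mem_Icc] at ha hb
          have ha0 : (0 : ℝ) < a := Nat.cast_pos.2 ha.1
          have hb0 : (0 : ℝ) < b := Nat.cast_pos.2 hb.1
          have hA := hC N a ha.1 ha.2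
          have hB := hC N b hb.1 hb.2
          have hp : mertens (N / a) * mertens (N / b) ≤
              C * ((N : ℝ) / a) ^ (1 / 2 + ε / 2) * (C * ((N : ℝ) / b) ^ (1 / 2 + ε / 2)) :=
            (le_abs_self _).trans <| by
              rw [abs_mul]
              exact mul_le_mul hA hB (abs_nonneg _) ((abs_nonneg _).trans hA)
          rw [mul_div_assoc]
          refine (mul_le_mul_of_nonneg_right hp (by positivity)).trans (le_of_eq ?_)
          have e : ∀ c : ℝ, 0 < c →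
              ((N : ℝ) / c) ^ (1 / 2 + ε / 2) / c = (N : ℝ) ^ (1 / 2 + ε / 2) * c ^ (-t) := by
            intro c hc
            rw [Real.div_rpow hN0.le hc.le, div_div, ← Real.rpow_add_one hc.ne',
              Real.rpow_neg hc.le, div_eq_mul_inv, ht]
            ring_nf
          have e2 : (N : ℝ) ^ (1 + ε) = (N : ℝ) ^ (1 / 2 + ε / 2) * (N : ℝ) ^ (1 / 2 + ε / 2) := by
            rw [← Real.rpow_add hN0]
            ring_nf
          calc _ = C ^ 2 * (Nat.gcd a b : ℝ) ^ 2 * (((N : ℝ) / a) ^ (1 / 2 + ε / 2) / a) *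
                (((N : ℝ) / b) ^ (1 / 2 + ε / 2) / b) := by ring
            _ = _ := by
                rw [e _ ha0, e _ hb0, e2]
                ring
      _ ≤ _ := by
          simp only [← mul_sum]
          refine (mul_le_mul_of_nonneg_left (gcd_form_le (by rw [ht]; linarith) N)
            (by positivity)).trans (le_of_eq ?_)
          rw [hK]
          ring
  have hid := franel_identity hN
  have hK0 : 0 ≤ K := by positivity
  have hΦ := card_farey_ge N
  have hs : 0 ≤ ∑ r ∈ farey N, discrepancy N r ^ 2 := sum_nonneg fun r _ => sq_nonneg _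
  have hpow : (N : ℝ) ^ (1 + ε) = (N : ℝ) ^ 2 * (N : ℝ) ^ (-1 + ε) := by
    rw [← Real.rpow_natCast, ← Real.rpow_add hN0]
    congr 1
    push_cast
    ring
  rw [hpow] at hform
  have h3 := mul_le_mul_of_nonneg_right
    (show 12 * ((N : ℝ) ^ 2 / 64) ≤ 12 * ((farey N).card : ℝ) by linarith) hs
  have h2 : 12 * ((N : ℝ) ^ 2 / 64) * ∑ r ∈ farey N, discrepancy N r ^ 2 ≤
      K * ((N : ℝ) ^ 2 * (N : ℝ) ^ (-1 + ε)) := by linarith
  refine le_of_mul_le_mul_left ?_ (show (0 : ℝ) < 12 * ((N : ℝ) ^ 2 / 64) by positivity)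
  refine h2.trans (le_of_eq ?_)
  ring

theorem landau_of_franel {ε : ℝ} (hε : 0 < ε)
    (h : ∃ C : ℝ, ∀ N : ℕ, 1 ≤ N →
      ∑ r ∈ farey N, discrepancy N r ^ 2 ≤ C * (N : ℝ) ^ (-1 + ε)) :
    ∃ C : ℝ, ∀ N : ℕ, 1 ≤ N →
      ∑ r ∈ farey N, |discrepancy N r| ≤ C * (N : ℝ) ^ (1 / 2 + ε) := by
  obtain ⟨C, hC⟩ := h
  refine ⟨Real.sqrt C, fun N hN => ?_⟩
  have hN0 : (0 : ℝ) < N := Nat.cast_pos.2 hN
  have hN1 : (1 : ℝ) ≤ N := Nat.one_le_cast.2 hN
  have hs : 0 ≤ ∑ r ∈ farey N, discrepancy N r ^ 2 := sum_nonneg fun r _ => sq_nonneg _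
  have hC0 : 0 ≤ C := nonneg_of_mul_nonneg_left (hs.trans (hC N hN)) (by positivity)
  refine le_of_pow_le_pow_left₀ two_ne_zero (by positivity) ?_
  refine sq_sum_le_card_mul_sum_sq.trans ?_
  simp only [sq_abs]
  refine (mul_le_mul (Nat.cast_le.2 (card_farey_le N)) (hC N hN) hs (by positivity)).trans ?_
  rw [mul_pow, Real.sq_sqrt hC0, ← mul_assoc, mul_comm _ C, mul_assoc]
  refine mul_le_mul_of_nonneg_left ?_ hC0
  push_cast
  rw [← Real.rpow_natCast (N : ℝ) 2, ← Real.rpow_add hN0,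
    ← Real.rpow_natCast ((N : ℝ) ^ (1 / 2 + ε)) 2, ← Real.rpow_mul hN0.le]
  refine Real.rpow_le_rpow_of_exponent_le hN1 ?_
  push_cast
  linarith

theorem norm_exp_sub_le (a b : ℝ) :
    ‖Complex.exp (Complex.I * a) - Complex.exp (Complex.I * b)‖ ≤ |a - b| := by
  have e : Complex.exp (Complex.I * a) - Complex.exp (Complex.I * b) =
      Complex.exp (Complex.I * b) * (Complex.exp (Complex.I * ((a - b : ℝ) : ℂ)) - 1) := by
    rw [mul_sub, mul_one, ← Complex.exp_add]
    push_cast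
    ring_nf
  rw [e, norm_mul, Complex.norm_exp_I_mul_ofReal, one_mul, ← Real.norm_eq_abs]
  exact Real.norm_exp_I_mul_ofReal_sub_one_le

theorem abs_mertens_le (N : ℕ) :
    |mertens N| ≤ 2 * Real.pi * (∑ r ∈ farey N, |discrepancy N r|) + 1 := by
  set Φ := (farey N).card with hΦ
  set u : ℕ → ℂ := fun i => Complex.exp (Complex.I * ((2 * Real.pi * (i / Φ) : ℝ) : ℂ)) with hu
  have hsum : ‖∑ i ∈ Icc 1 Φ, u i‖ ≤ 1 := by
    rcases le_or_gt Φ 1 with h | h
    · refine (norm_sum_le _ _).trans ?_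
      simp only [hu, Complex.norm_exp_I_mul_ofReal, sum_const, Nat.card_Icc, nsmul_eq_mul, mul_one]
      exact_mod_cast h
    · have hz := Complex.isPrimitiveRoot_exp Φ (by omega)
      have hI : Icc 1 Φ = (range Φ).image (· + 1) := by
        ext j
        simp only [mem_Icc, mem_image, mem_range]
        exact ⟨fun h => ⟨j - 1, by omega, by omega⟩, by rintro ⟨i, hi, rfl⟩; omega⟩
      rw [hI, sum_image fun i _ j _ e => Nat.add_right_cancel e]
      have e : ∀ i, u (i + 1) = Complex.exp (2 * Real.pi * Complex.I / Φ) ^ i *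
          Complex.exp (2 * Real.pi * Complex.I / Φ) := fun i => by
        rw [← Complex.exp_nat_mul, ← Complex.exp_add]
        simp only [hu]
        congr 1
        push_cast
        ring
      simp only [e, ← sum_mul, hz.geom_sum_eq_zero h, zero_mul, norm_zero]
      exact zero_le_one
  have hM : (mertens N : ℂ) = ∑ r ∈ farey N, (Complex.exp (Complex.I *
      ((2 * Real.pi * (r : ℝ) : ℝ) : ℂ)) - u (rank N r)) + ∑ i ∈ Icc 1 Φ, u i := by
    rw [sum_sub_distrib, sum_rank u N, sub_add_cancel, ← sum_exp]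
    refine sum_congr rfl fun r _ => ?_
    push_cast
    ring_nf
  rw [← Real.norm_eq_abs, ← Complex.norm_real, hM]
  refine (norm_add_le _ _).trans (add_le_add ((norm_sum_le _ _).trans ?_) hsum)
  rw [mul_sum]
  refine sum_le_sum fun r _ => (norm_exp_sub_le _ _).trans (le_of_eq ?_)
  rw [← mul_sub, abs_mul, abs_of_pos Real.two_pi_pos, discrepancy]

theorem rh_of_landau (h : ∀ ε : ℝ, 0 < ε → ∃ C : ℝ, ∀ N : ℕ, 1 ≤ N →
    ∑ r ∈ farey N, |discrepancy N r| ≤ C * (N : ℝ) ^ (1 / 2 + ε)) : RiemannHypothesis := by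
  refine FA.VonKoch.Summary.riemannHypothesis_iff_mertens.2 fun ε hε => ?_
  obtain ⟨C, hC⟩ := h ε hε
  refine ⟨2 * Real.pi * C + 1, fun x hx => ?_⟩
  have hn : 1 ≤ ⌊x⌋₊ := Nat.one_le_iff_ne_zero.2 (Nat.floor_pos.2 hx).ne'
  have hn0 : (1 : ℝ) ≤ (⌊x⌋₊ : ℝ) := Nat.one_le_cast.2 hn
  have hfl : (⌊x⌋₊ : ℝ) ≤ x := Nat.floor_le (by linarith)
  have hC0 : 0 ≤ C :=
    nonneg_of_mul_nonneg_left ((sum_nonneg fun r _ => abs_nonneg _).trans (hC 1 le_rfl))
      (by positivity)
  refine (abs_mertens_le _).trans ?_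
  have h1 : (⌊x⌋₊ : ℝ) ^ (1 / 2 + ε) ≤ x ^ (1 / 2 + ε) :=
    Real.rpow_le_rpow (by linarith) hfl (by linarith)
  have h2 : 1 ≤ x ^ (1 / 2 + ε) := Real.one_le_rpow hx (by linarith)
  have h3 := mul_le_mul_of_nonneg_left ((hC _ hn).trans (mul_le_mul_of_nonneg_left h1 hC0))
    Real.two_pi_pos.le
  linarith

end FA.FranelLandau
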